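import Mathlib

/-!
# Row LT, tower T6, sub-tower T6inf, leaf T6inf.09 `CutoffExC` (helper296): abstract part

* `tent296` : an explicit continuous function `ℝ → ℝ`, `≥ 0`, nonzero exactly on `(1/4, 4)`.
* `cutoff_abs296` : the Bruhat trick for a COMMUTATIVE group `T` with Haar measure `μ`:
  if `Ψ : H → ℝ` is continuous, `≥ 0`, and on every orbit `t ↦ Ψ (j t * x)` is a translate
  `t ↦ F (t * s)` of ONE continuous compactly supported function `F ≥ 0`, `F ≠ 0`, on `T`,
  then `β = Ψ / ∫ F` satisfies `∫ β (j t * x) dμ(t) = 1` for all `x`.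
* `isCompact_gl_box296` : the set of `g ∈ GL₂(ℝ)` with all entries of `g` and `g⁻¹` bounded by
  `C` is compact.

OFF-MAIN.  Mathlib only.
-/

set_option autoImplicit false

open MeasureTheory

noncomputable section

namespace Fermat.Agent.LT.T6.H296

/-- The tent function: continuous, `≥ 0`, nonzero exactly on `(1/4, 4)`. -/
def tent296 (u : ℝ) : ℝ := max 0 (min (u - 1 / 4) (4 - u))

theorem tent296_continuous : Continuous tent296 := by
  unfold tent296
  fun_prop

theorem tent296_nonneg (u : ℝ) : 0 ≤ tent296 u := le_max_left _ _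

theorem tent296_ne_zero_iff (u : ℝ) : tent296 u ≠ 0 ↔ 1 / 4 < u ∧ u < 4 := by
  unfold tent296
  constructor
  · intro h
    by_contra hc
    apply h
    apply max_eq_left
    rw [not_and_or] at hc
    rcases hc with hc | hc
    · exact (min_le_left _ _).trans (by linarith [not_lt.mp hc])
    · exact (min_le_right _ _).trans (by linarith [not_lt.mp hc])
  · rintro ⟨h1, h2⟩
    have : 0 < min (u - 1 / 4) (4 - u) := lt_min (by linarith) (by linarith)
    rw [max_eq_right this.le]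
    exact this.ne'

theorem tent296_one_ne_zero : tent296 1 ≠ 0 :=
  (tent296_ne_zero_iff 1).2 ⟨by norm_num, by norm_num⟩

/-- `u ∈ (1/4, 4)` iff `u⁻¹ ∈ (1/4, 4)`, one direction. -/
theorem inv_mem_quarter_four296 {u : ℝ} (h : 1 / 4 < u ∧ u < 4) : 1 / 4 < u⁻¹ ∧ u⁻¹ < 4 := by
  obtain ⟨h1, h2⟩ := h
  have hu : 0 < u := by linarith
  constructor
  · rw [lt_inv_comm₀ (by norm_num) hu]
    norm_num
    exact h2
  · rw [inv_lt_comm₀ hu (by norm_num)]
    norm_num
    linarith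

/-- **The Bruhat trick, commutative case.** -/
theorem cutoff_abs296 {T H : Type*} [Group T] [TopologicalSpace T] [IsTopologicalGroup T]
    [MeasurableSpace T] [BorelSpace T] [TopologicalSpace H] [Mul H]
    (hcomm : ∀ a b : T, a * b = b * a)
    (μ : Measure T) [μ.IsHaarMeasure] (j : T → H) (Ψ : H → ℝ) (hΨc : Continuous Ψ)
    (hΨ0 : ∀ x, 0 ≤ Ψ x)
    (F : T → ℝ) (hFc : Continuous F) (hFs : HasCompactSupport F) (hF0 : ∀ t, 0 ≤ F t)
    (hFne : ∃ t, F t ≠ 0)
    (h : ∀ x : H, ∃ s : T, ∀ t : T, Ψ (j t * x) = F (t * s)) :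
    ∃ β : H → ℝ, Continuous β ∧ (∀ x, 0 ≤ β x) ∧ ∀ x, ∫ t, β (j t * x) ∂μ = 1 := by
  obtain ⟨t₀, ht₀⟩ := hFne
  have hc : 0 < ∫ t, F t ∂μ :=
    hFc.integral_pos_of_hasCompactSupport_nonneg_nonzero hFs hF0 ht₀
  refine ⟨fun x => Ψ x / ∫ t, F t ∂μ, hΨc.div_const _,
    fun x => div_nonneg (hΨ0 x) hc.le, fun x => ?_⟩
  obtain ⟨s, hs⟩ := h x
  have h1 : (fun t => Ψ (j t * x) / ∫ t, F t ∂μ) = fun t => F (s * t) / ∫ t, F t ∂μ := by
    funext t
    rw [hs t, hcomm]
  simp only [h1]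
  rw [integral_div, integral_mul_left_eq_self F s, div_self hc.ne']

/-- The box of `GL₂(ℝ)`: all entries of `g` and of `g⁻¹` are bounded by `C`. -/
def glBox296 (C : ℝ) : Set (GL (Fin 2) ℝ) :=
  {g | (∀ i j, |(g : Matrix (Fin 2) (Fin 2) ℝ) i j| ≤ C) ∧
    ∀ i j, |((g⁻¹ : GL (Fin 2) ℝ) : Matrix (Fin 2) (Fin 2) ℝ) i j| ≤ C}

theorem isCompact_glBox296 (C : ℝ) : IsCompact (glBox296 C) := by
  let KM : Set (Matrix (Fin 2) (Fin 2) ℝ) := {m | ∀ i j, |m i j| ≤ C}
  have hKM : IsCompact KM := by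
    have h1 : KM = Set.pi Set.univ
        (fun _ : Fin 2 => Set.pi Set.univ (fun _ : Fin 2 => Set.Icc (-C) C)) := by
      ext m
      constructor
      · intro h i _ j _
        exact abs_le.1 (h i j)
      · intro h i j
        exact abs_le.2 (h i (Set.mem_univ i) j (Set.mem_univ j))
    rw [h1]
    exact isCompact_univ_pi (fun _ => isCompact_univ_pi (fun _ => isCompact_Icc))
  have hK2 : IsCompact (KM ×ˢ (MulOpposite.op '' KM)) :=
    hKM.prod (hKM.image MulOpposite.continuous_op)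
  have h3 := (Units.isClosedEmbedding_embedProduct
    (α := Matrix (Fin 2) (Fin 2) ℝ)).isCompact_preimage hK2
  convert h3 using 1
  ext g
  rw [Set.mem_preimage, Set.mem_prod]
  constructor
  · rintro ⟨h1, h2⟩
    exact ⟨h1, _, h2, rfl⟩
  · rintro ⟨h1, x, hx, hxe⟩
    refine ⟨h1, ?_⟩
    have hx2 : x = ((g⁻¹ : GL (Fin 2) ℝ) : Matrix (Fin 2) (Fin 2) ℝ) :=
      MulOpposite.op_injective hxe
    rw [← hx2]
    exact hx

end Fermat.Agent.LT.T6.H296

end
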