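import Mathlib

/-!
# Row LT, tower T6, sub-tower T6inf, leaf T6inf.09 `CutoffExC` (helper296): matrix algebra

`A` a real `2 × 2` matrix with `tr² - 4 det ≠ 0`, `A' = A - (tr A / 2)` its traceless part,
`D = (tr² - 4 det) / 4`, so `A'² = D`.

* `cent_struct296` : every `x` commuting with `A` is `a + b A'`;
* `det_ab296`      : `det (a + b A') = a² - D b²`;
* `E296_mul`       : `(r + A') (a + b A') = (a + b r) (r + A')` if `r² = D`;
* `entry_bound296` : `|(a + b A')ᵢⱼ| ≤ |a| + |b| M`.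

OFF-MAIN.  Mathlib only.
-/

set_option autoImplicit false

open Matrix

noncomputable section

namespace Fermat.Agent.LT.T6.H296

/-- The traceless part `A - (tr A / 2)`. -/
def trl296 (A : Matrix (Fin 2) (Fin 2) ℝ) : Matrix (Fin 2) (Fin 2) ℝ :=
  A - (A.trace / 2) • (1 : Matrix (Fin 2) (Fin 2) ℝ)

/-- The quarter of the discriminant. -/
def qd296 (A : Matrix (Fin 2) (Fin 2) ℝ) : ℝ := (A.trace ^ 2 - 4 * A.det) / 4

/-- The element `a + b A'`. -/
def ab296 (A : Matrix (Fin 2) (Fin 2) ℝ) (a b : ℝ) : Matrix (Fin 2) (Fin 2) ℝ :=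
  a • (1 : Matrix (Fin 2) (Fin 2) ℝ) + b • trl296 A

theorem trl296_apply (A : Matrix (Fin 2) (Fin 2) ℝ) :
    trl296 A 0 0 = (A 0 0 - A 1 1) / 2 ∧ trl296 A 0 1 = A 0 1 ∧ trl296 A 1 0 = A 1 0 ∧
      trl296 A 1 1 = (A 1 1 - A 0 0) / 2 := by
  refine ⟨?_, ?_, ?_, ?_⟩ <;>
    simp [trl296, Matrix.trace_fin_two, Matrix.sub_apply, Matrix.smul_apply,
      Matrix.one_apply] <;> ring

theorem qd296_eq (A : Matrix (Fin 2) (Fin 2) ℝ) :
    qd296 A = ((A 0 0 - A 1 1) / 2) ^ 2 + A 0 1 * A 1 0 := by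
  simp only [qd296, Matrix.trace_fin_two, Matrix.det_fin_two]
  ring

theorem ab296_apply (A : Matrix (Fin 2) (Fin 2) ℝ) (a b : ℝ) :
    ab296 A a b 0 0 = a + b * ((A 0 0 - A 1 1) / 2) ∧ ab296 A a b 0 1 = b * A 0 1 ∧
      ab296 A a b 1 0 = b * A 1 0 ∧ ab296 A a b 1 1 = a + b * ((A 1 1 - A 0 0) / 2) := by
  obtain ⟨h00, h01, h10, h11⟩ := trl296_apply A
  refine ⟨?_, ?_, ?_, ?_⟩ <;>
    simp [ab296, Matrix.add_apply, Matrix.smul_apply, Matrix.one_apply, h00, h01, h10, h11]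

/-- Every matrix commuting with a regular `A` is `a + b A'`. -/
theorem cent_struct296 (A : Matrix (Fin 2) (Fin 2) ℝ) (hD : qd296 A ≠ 0)
    (x : Matrix (Fin 2) (Fin 2) ℝ) (hx : x * A = A * x) :
    ∃ a b : ℝ, x = ab296 A a b := by
  have h00 := congr_fun (congr_fun hx 0) 0
  have h01 := congr_fun (congr_fun hx 0) 1
  have h10 := congr_fun (congr_fun hx 1) 0
  have h11 := congr_fun (congr_fun hx 1) 1
  simp only [Matrix.mul_apply, Fin.sum_univ_two] at h00 h01 h10 h11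
  have hD' := qd296_eq A
  have h2D : 2 * qd296 A ≠ 0 := mul_ne_zero two_ne_zero hD
  obtain ⟨b, hb⟩ : ∃ b : ℝ, b * (2 * qd296 A) =
      (x 0 0 - x 1 1) * ((A 0 0 - A 1 1) / 2) + x 0 1 * A 1 0 + x 1 0 * A 0 1 :=
    ⟨_, div_mul_cancel₀ _ h2D⟩
  obtain ⟨e00, e01, e10, e11⟩ := ab296_apply A ((x 0 0 + x 1 1) / 2) b
  refine ⟨(x 0 0 + x 1 1) / 2, b, ?_⟩
  have g00 : x 0 0 = ab296 A ((x 0 0 + x 1 1) / 2) b 0 0 := by
    rw [e00]
    apply mul_left_cancel₀ h2D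
    linear_combination (-((A 0 0 - A 1 1) / 2)) * hb + (x 0 0 - x 1 1) * hD' +
      (A 1 0 / 2) * h01 - (A 0 1 / 2) * h10
  have g01 : x 0 1 = ab296 A ((x 0 0 + x 1 1) / 2) b 0 1 := by
    rw [e01]
    apply mul_left_cancel₀ h2D
    linear_combination (-(A 0 1)) * hb + (2 * x 0 1) * hD' +
      (-(A 0 0 - A 1 1) / 2) * h01 + (A 0 1) * h00
  have g10 : x 1 0 = ab296 A ((x 0 0 + x 1 1) / 2) b 1 0 := by
    rw [e10]
    apply mul_left_cancel₀ h2D
    linear_combination (-(A 1 0)) * hb + (2 * x 1 0) * hD' +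
      ((A 0 0 - A 1 1) / 2) * h10 + (A 1 0) * h11
  have g11 : x 1 1 = ab296 A ((x 0 0 + x 1 1) / 2) b 1 1 := by
    rw [e11]
    apply mul_left_cancel₀ h2D
    linear_combination (-((A 1 1 - A 0 0) / 2)) * hb + (x 1 1 - x 0 0) * hD' -
      (A 1 0 / 2) * h01 + (A 0 1 / 2) * h10
  ext i j
  fin_cases i <;> fin_cases j
  exacts [g00, g01, g10, g11]

/-- The product formula in `ℝ[A']`, `A'² = D`. -/
theorem ab296_mul (A : Matrix (Fin 2) (Fin 2) ℝ) (a b a' b' : ℝ) :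
    ab296 A a b * ab296 A a' b' = ab296 A (a * a' + qd296 A * b * b') (a * b' + b * a') := by
  obtain ⟨e00, e01, e10, e11⟩ := ab296_apply A a b
  obtain ⟨f00, f01, f10, f11⟩ := ab296_apply A a' b'
  obtain ⟨g00, g01, g10, g11⟩ :=
    ab296_apply A (a * a' + qd296 A * b * b') (a * b' + b * a')
  have hD' := qd296_eq A
  have k00 : (ab296 A a b * ab296 A a' b') 0 0 =
      ab296 A (a * a' + qd296 A * b * b') (a * b' + b * a') 0 0 := by
    rw [Matrix.mul_apply, Fin.sum_univ_two, e00, e01, f00, f10, g00, hD']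
    ring
  have k01 : (ab296 A a b * ab296 A a' b') 0 1 =
      ab296 A (a * a' + qd296 A * b * b') (a * b' + b * a') 0 1 := by
    rw [Matrix.mul_apply, Fin.sum_univ_two, e00, e01, f01, f11, g01]
    ring
  have k10 : (ab296 A a b * ab296 A a' b') 1 0 =
      ab296 A (a * a' + qd296 A * b * b') (a * b' + b * a') 1 0 := by
    rw [Matrix.mul_apply, Fin.sum_univ_two, e10, e11, f00, f10, g10]
    ring
  have k11 : (ab296 A a b * ab296 A a' b') 1 1 =
      ab296 A (a * a' + qd296 A * b * b') (a * b' + b * a') 1 1 := by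
    rw [Matrix.mul_apply, Fin.sum_univ_two, e10, e11, f01, f11, g11, hD']
    ring
  ext i j
  fin_cases i <;> fin_cases j
  exacts [k00, k01, k10, k11]

theorem ab296_comm (A : Matrix (Fin 2) (Fin 2) ℝ) (a b a' b' : ℝ) :
    ab296 A a b * ab296 A a' b' = ab296 A a' b' * ab296 A a b := by
  rw [ab296_mul, ab296_mul]
  congr 1 <;> ring

theorem ab296_smul (A : Matrix (Fin 2) (Fin 2) ℝ) (c a b : ℝ) :
    c • ab296 A a b = ab296 A (c * a) (c * b) := by
  simp only [ab296, smul_add, smul_smul]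

theorem ab296_one (A : Matrix (Fin 2) (Fin 2) ℝ) : ab296 A 1 0 = 1 := by
  simp [ab296]

theorem ab296_self (A : Matrix (Fin 2) (Fin 2) ℝ) : ab296 A (A.trace / 2) 1 = A := by
  simp [ab296, trl296]

/-- `a + b A'` commutes with `A`. -/
theorem ab296_comm_self (A : Matrix (Fin 2) (Fin 2) ℝ) (a b : ℝ) :
    ab296 A a b * A = A * ab296 A a b := by
  have h := ab296_comm A a b (A.trace / 2) 1
  rwa [ab296_self] at h

theorem det_ab296 (A : Matrix (Fin 2) (Fin 2) ℝ) (a b : ℝ) :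
    (ab296 A a b).det = a ^ 2 - qd296 A * b ^ 2 := by
  obtain ⟨e00, e01, e10, e11⟩ := ab296_apply A a b
  rw [Matrix.det_fin_two, e00, e01, e10, e11, qd296_eq]
  ring

/-- `(r + A') (a + b A') = (a + b r) (r + A')` if `r² = D`. -/
theorem E296_mul (A : Matrix (Fin 2) (Fin 2) ℝ) (r : ℝ) (hr : r * r = qd296 A) (a b : ℝ) :
    ab296 A r 1 * ab296 A a b = (a + b * r) • ab296 A r 1 := by
  rw [ab296_mul, ab296_smul, ← hr]
  congr 1 <;> ring

/-- `r + A' ≠ 0` if `r ≠ 0` (its trace is `2 r`). -/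
theorem E296_ne_zero (A : Matrix (Fin 2) (Fin 2) ℝ) (r : ℝ) (hr : r ≠ 0) :
    ab296 A r 1 ≠ 0 := by
  intro h
  obtain ⟨e00, -, -, e11⟩ := ab296_apply A r 1
  rw [h] at e00 e11
  simp only [Matrix.zero_apply] at e00 e11
  apply hr
  linarith

/-- The sum of the absolute values of the entries. -/
def M296 (A : Matrix (Fin 2) (Fin 2) ℝ) : ℝ := |A 0 0| + |A 0 1| + |A 1 0| + |A 1 1|

theorem M296_nonneg (A : Matrix (Fin 2) (Fin 2) ℝ) : 0 ≤ M296 A := by
  unfold M296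
  positivity

theorem abs_trl296_le (A : Matrix (Fin 2) (Fin 2) ℝ) (i j : Fin 2) :
    |trl296 A i j| ≤ M296 A := by
  obtain ⟨h00, h01, h10, h11⟩ := trl296_apply A
  have p00 := abs_nonneg (A 0 0)
  have p01 := abs_nonneg (A 0 1)
  have p10 := abs_nonneg (A 1 0)
  have p11 := abs_nonneg (A 1 1)
  have q1 : |(A 0 0 - A 1 1) / 2| ≤ |A 0 0| + |A 1 1| := by
    rw [abs_div, abs_two]
    have := abs_sub (A 0 0) (A 1 1)
    have h2 : |A 0 0 - A 1 1| / 2 ≤ |A 0 0 - A 1 1| := by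
      have := abs_nonneg (A 0 0 - A 1 1)
      linarith
    linarith
  have q2 : |(A 1 1 - A 0 0) / 2| ≤ |A 0 0| + |A 1 1| := by
    rw [abs_div, abs_two]
    have := abs_sub (A 1 1) (A 0 0)
    have h2 : |A 1 1 - A 0 0| / 2 ≤ |A 1 1 - A 0 0| := by
      have := abs_nonneg (A 1 1 - A 0 0)
      linarith
    linarith
  unfold M296
  fin_cases i <;> fin_cases j
  · show |trl296 A 0 0| ≤ _
    rw [h00]; linarith
  · show |trl296 A 0 1| ≤ _
    rw [h01]; linarith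
  · show |trl296 A 1 0| ≤ _
    rw [h10]; linarith
  · show |trl296 A 1 1| ≤ _
    rw [h11]; linarith

/-- Entries of `a + b A'` are bounded by `|a| + |b| M`. -/
theorem entry_bound296 (A : Matrix (Fin 2) (Fin 2) ℝ) (a b : ℝ) (i j : Fin 2) :
    |ab296 A a b i j| ≤ |a| + |b| * M296 A := by
  have h1 : ab296 A a b i j = a * (1 : Matrix (Fin 2) (Fin 2) ℝ) i j + b * trl296 A i j := by
    simp [ab296, Matrix.add_apply, Matrix.smul_apply]
  rw [h1]
  have h2 : |(1 : Matrix (Fin 2) (Fin 2) ℝ) i j| ≤ 1 := by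
    rw [Matrix.one_apply]
    split_ifs <;> simp
  calc |a * (1 : Matrix (Fin 2) (Fin 2) ℝ) i j + b * trl296 A i j|
      ≤ |a * (1 : Matrix (Fin 2) (Fin 2) ℝ) i j| + |b * trl296 A i j| := abs_add_le _ _
    _ = |a| * |(1 : Matrix (Fin 2) (Fin 2) ℝ) i j| + |b| * |trl296 A i j| := by
        rw [abs_mul, abs_mul]
    _ ≤ |a| * 1 + |b| * M296 A :=
        add_le_add (mul_le_mul_of_nonneg_left h2 (abs_nonneg _))
          (mul_le_mul_of_nonneg_left (abs_trl296_le A i j) (abs_nonneg _))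
    _ = |a| + |b| * M296 A := by ring

/-- The uniform bound: `|a| ≤ 2`, `|b| ρ ≤ 2`, `ρ > 0`. -/
theorem entry_bound2_296 (A : Matrix (Fin 2) (Fin 2) ℝ) (a b ρ : ℝ) (hρ : 0 < ρ)
    (ha : |a| ≤ 2) (hb : |b| * ρ ≤ 2) (i j : Fin 2) :
    |ab296 A a b i j| ≤ 2 + 2 / ρ * M296 A := by
  have hb' : |b| ≤ 2 / ρ := by
    rw [le_div_iff₀ hρ]
    exact hb
  calc |ab296 A a b i j| ≤ |a| + |b| * M296 A := entry_bound296 A a b i j
    _ ≤ 2 + 2 / ρ * M296 A :=
        add_le_add ha (mul_le_mul_of_nonneg_right hb' (M296_nonneg A))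

/-! ### The squared Frobenius norm of `E^ℂ Y` -/

/-- `∑ |(E^ℂ Y)ᵢⱼ|²`. -/
def frob296 (E : Matrix (Fin 2) (Fin 2) ℝ) (Y : Matrix (Fin 2) (Fin 2) ℂ) : ℝ :=
  ∑ i, ∑ j, Complex.normSq ((E.map (algebraMap ℝ ℂ) * Y) i j)

theorem frob296_nonneg (E : Matrix (Fin 2) (Fin 2) ℝ) (Y : Matrix (Fin 2) (Fin 2) ℂ) :
    0 ≤ frob296 E Y :=
  Finset.sum_nonneg fun _ _ => Finset.sum_nonneg fun _ _ => Complex.normSq_nonneg _

theorem frob296_pos (E : Matrix (Fin 2) (Fin 2) ℝ) (Y : Matrix (Fin 2) (Fin 2) ℂ)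
    (h : E.map (algebraMap ℝ ℂ) * Y ≠ 0) : 0 < frob296 E Y := by
  by_contra hc
  have h0 : frob296 E Y = 0 := le_antisymm (not_lt.mp hc) (frob296_nonneg E Y)
  apply h
  ext i j
  unfold frob296 at h0
  have h1 := (Finset.sum_eq_zero_iff_of_nonneg
    (fun i _ => Finset.sum_nonneg fun j _ => Complex.normSq_nonneg _)).1 h0 i (Finset.mem_univ i)
  have h2 := (Finset.sum_eq_zero_iff_of_nonneg
    (fun j _ => Complex.normSq_nonneg _)).1 h1 j (Finset.mem_univ j)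
  simpa using h2

theorem frob296_smul (c : ℝ) (E : Matrix (Fin 2) (Fin 2) ℝ) (Y : Matrix (Fin 2) (Fin 2) ℂ) :
    frob296 (c • E) Y = c ^ 2 * frob296 E Y := by
  unfold frob296
  have h1 : (c • E).map (algebraMap ℝ ℂ) = (c : ℂ) • E.map (algebraMap ℝ ℂ) := by
    ext i j
    simp [Matrix.map_apply, Matrix.smul_apply]
  rw [h1, Matrix.smul_mul, Finset.mul_sum]
  refine Finset.sum_congr rfl fun i _ => ?_
  rw [Finset.mul_sum]
  refine Finset.sum_congr rfl fun j _ => ?_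
  rw [Matrix.smul_apply, smul_eq_mul, Complex.normSq_mul, Complex.normSq_ofReal]
  ring

theorem frob296_mul_map (E X : Matrix (Fin 2) (Fin 2) ℝ) (Y : Matrix (Fin 2) (Fin 2) ℂ) :
    frob296 E (X.map (algebraMap ℝ ℂ) * Y) = frob296 (E * X) Y := by
  unfold frob296
  rw [Matrix.map_mul, Matrix.mul_assoc]

/-- The key transformation law. -/
theorem frob296_E_ab (A : Matrix (Fin 2) (Fin 2) ℝ) (r : ℝ) (hr : r * r = qd296 A) (a b : ℝ)
    (Y : Matrix (Fin 2) (Fin 2) ℂ) :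
    frob296 (ab296 A r 1) ((ab296 A a b).map (algebraMap ℝ ℂ) * Y) =
      (a + b * r) ^ 2 * frob296 (ab296 A r 1) Y := by
  rw [frob296_mul_map, E296_mul A r hr, frob296_smul]

theorem map_ne_zero296 (E : Matrix (Fin 2) (Fin 2) ℝ) (hE : E ≠ 0) :
    E.map (algebraMap ℝ ℂ) ≠ 0 := by
  intro h
  apply hE
  ext i j
  have := congr_fun (congr_fun h i) j
  simpa [Matrix.map_apply] using this

theorem frob296_pos_of_isUnit (E : Matrix (Fin 2) (Fin 2) ℝ) (hE : E ≠ 0)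
    (Y : Matrix (Fin 2) (Fin 2) ℂ) (hY : IsUnit Y) : 0 < frob296 E Y := by
  apply frob296_pos
  intro h
  apply map_ne_zero296 E hE
  obtain ⟨u, rfl⟩ := hY
  have := congr_arg (fun Z => Z * ((u⁻¹ : (Matrix (Fin 2) (Fin 2) ℂ)ˣ) : Matrix (Fin 2) (Fin 2) ℂ)) h
  simpa [Matrix.mul_assoc] using this

theorem frob296_one_pos (E : Matrix (Fin 2) (Fin 2) ℝ) (hE : E ≠ 0) : 0 < frob296 E 1 :=
  frob296_pos_of_isUnit E hE 1 isUnit_one

end Fermat.Agent.LT.T6.H296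

end
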