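import Fermat.Agent.LT.T6.H296.CutoffAbs
import Fermat.Agent.LT.T6.H296.CutoffMat

/-!
# Row LT, tower T6, sub-tower T6inf, leaf T6inf.09 `CutoffExC` (helper296): the function `Ψ`

For a subgroup `T` of `GL₂(ℝ)` which is the centraliser of a regular `γ` we construct a
continuous `Ψ ≥ 0` on `GL₂(ℂ)` whose restriction to every orbit `T y` is a translate of ONE
compactly supported function on `T`:

* elliptic case (`D < 0`): `Ψ y = φ(|det y|)²`;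
* split case (`D > 0`): `Ψ y = φ(N₊ y) φ(N₋ y)`, `N_± y = ‖(±r + A') y‖² / ‖±r + A'‖²`,
  `r = √D`.

OFF-MAIN.  Mathlib only.
-/

set_option autoImplicit false

open Matrix

noncomputable section

namespace Fermat.Agent.LT.T6.H296

/-- The inclusion `GL₂(ℝ) → GL₂(ℂ)`. -/
abbrev inclC296 : GL (Fin 2) ℝ →* GL (Fin 2) ℂ :=
  Matrix.GeneralLinearGroup.map (algebraMap ℝ ℂ)

theorem inclC296_continuous : Continuous inclC296 := by
  apply Continuous.units_map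
  show Continuous (fun M : Matrix (Fin 2) (Fin 2) ℝ => M.map (algebraMap ℝ ℂ))
  exact continuous_id.matrix_map (continuous_algebraMap ℝ ℂ)

theorem inclC296_val (t : GL (Fin 2) ℝ) :
    ((inclC296 t : GL (Fin 2) ℂ) : Matrix (Fin 2) (Fin 2) ℂ) =
      (t : Matrix (Fin 2) (Fin 2) ℝ).map (algebraMap ℝ ℂ) := rfl

theorem inclC296_mul_val (t : GL (Fin 2) ℝ) (y : GL (Fin 2) ℂ) :
    ((inclC296 t * y : GL (Fin 2) ℂ) : Matrix (Fin 2) (Fin 2) ℂ) =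
      (t : Matrix (Fin 2) (Fin 2) ℝ).map (algebraMap ℝ ℂ) * (y : Matrix (Fin 2) (Fin 2) ℂ) :=
  rfl

/-- **From semi-invariants to `Ψ`.** -/
theorem psi_of_semiinv296 (T : Subgroup (GL (Fin 2) ℝ)) (N₁ N₂ : GL (Fin 2) ℂ → ℝ)
    (hN₁c : Continuous N₁) (hN₂c : Continuous N₂) (h1 : N₁ 1 = 1) (h2 : N₂ 1 = 1)
    (hm₁ : ∀ t ∈ T, ∀ y, N₁ (inclC296 t * y) = N₁ (inclC296 t) * N₁ y)
    (hm₂ : ∀ t ∈ T, ∀ y, N₂ (inclC296 t * y) = N₂ (inclC296 t) * N₂ y)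
    (hs : ∀ y, ∃ s ∈ T, N₁ (inclC296 s) = N₁ y ∧ N₂ (inclC296 s) = N₂ y)
    (C : ℝ)
    (hC : ∀ t ∈ T, (1 / 4 < N₁ (inclC296 t) ∧ N₁ (inclC296 t) < 4) →
      (1 / 4 < N₂ (inclC296 t) ∧ N₂ (inclC296 t) < 4) →
      ∀ i j, |(t : Matrix (Fin 2) (Fin 2) ℝ) i j| ≤ C) :
    ∃ Ψ : GL (Fin 2) ℂ → ℝ, Continuous Ψ ∧ (∀ y, 0 ≤ Ψ y) ∧
      (∀ t ∈ T, Ψ (inclC296 t) ≠ 0 → t ∈ glBox296 C) ∧ Ψ 1 ≠ 0 ∧
      ∀ y, ∃ s ∈ T, ∀ t ∈ T, Ψ (inclC296 t * y) = Ψ (inclC296 (t * s)) := by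
  refine ⟨fun y => tent296 (N₁ y) * tent296 (N₂ y),
    (tent296_continuous.comp hN₁c).mul (tent296_continuous.comp hN₂c),
    fun y => mul_nonneg (tent296_nonneg _) (tent296_nonneg _), ?_, ?_, ?_⟩
  · intro t ht hΨ
    obtain ⟨k1, k2⟩ := mul_ne_zero_iff.1 hΨ
    have k1' := (tent296_ne_zero_iff _).1 k1
    have k2' := (tent296_ne_zero_iff _).1 k2
    have hinv : ∀ N : GL (Fin 2) ℂ → ℝ, N 1 = 1 →
        (∀ t ∈ T, ∀ y, N (inclC296 t * y) = N (inclC296 t) * N y) →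
        N (inclC296 t⁻¹) = (N (inclC296 t))⁻¹ := by
      intro N hN1 hNm
      have e1 := hNm t⁻¹ (T.inv_mem ht) (inclC296 t)
      rw [← map_mul, inv_mul_cancel, map_one, hN1] at e1
      exact eq_inv_of_mul_eq_one_left e1.symm
    refine ⟨hC t ht k1' k2', hC t⁻¹ (T.inv_mem ht) ?_ ?_⟩
    · rw [hinv N₁ h1 hm₁]
      exact inv_mem_quarter_four296 k1'
    · rw [hinv N₂ h2 hm₂]
      exact inv_mem_quarter_four296 k2'
  · show tent296 (N₁ 1) * tent296 (N₂ 1) ≠ 0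
    rw [h1, h2]
    exact mul_ne_zero tent296_one_ne_zero tent296_one_ne_zero
  · intro y
    obtain ⟨s, hsT, e1, e2⟩ := hs y
    refine ⟨s, hsT, fun t ht => ?_⟩
    show tent296 (N₁ (inclC296 t * y)) * tent296 (N₂ (inclC296 t * y)) =
      tent296 (N₁ (inclC296 (t * s))) * tent296 (N₂ (inclC296 (t * s)))
    rw [map_mul, hm₁ t ht y, hm₂ t ht y, hm₁ t ht (inclC296 s), hm₂ t ht (inclC296 s), e1, e2]

/-! ### The semi-invariants `N_r` (split case) -/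

/-- `N_r y = ‖(r + A') y‖² / ‖r + A'‖²`. -/
def Nfr296 (A : Matrix (Fin 2) (Fin 2) ℝ) (r : ℝ) (y : GL (Fin 2) ℂ) : ℝ :=
  frob296 (ab296 A r 1) (y : Matrix (Fin 2) (Fin 2) ℂ) / frob296 (ab296 A r 1) 1

theorem Nfr296_continuous (A : Matrix (Fin 2) (Fin 2) ℝ) (r : ℝ) :
    Continuous (Nfr296 A r) := by
  unfold Nfr296 frob296
  fun_prop

theorem Nfr296_one (A : Matrix (Fin 2) (Fin 2) ℝ) (r : ℝ) (hr : r ≠ 0) :
    Nfr296 A r 1 = 1 := by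
  unfold Nfr296
  exact div_self (frob296_one_pos _ (E296_ne_zero A r hr)).ne'

theorem Nfr296_pos (A : Matrix (Fin 2) (Fin 2) ℝ) (r : ℝ) (hr : r ≠ 0) (y : GL (Fin 2) ℂ) :
    0 < Nfr296 A r y := by
  unfold Nfr296
  exact div_pos (frob296_pos_of_isUnit _ (E296_ne_zero A r hr) _ y.isUnit)
    (frob296_one_pos _ (E296_ne_zero A r hr))

theorem Nfr296_ab (A : Matrix (Fin 2) (Fin 2) ℝ) (r : ℝ) (hr : r * r = qd296 A)
    (t : GL (Fin 2) ℝ) (a b : ℝ) (ht : (t : Matrix (Fin 2) (Fin 2) ℝ) = ab296 A a b)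
    (y : GL (Fin 2) ℂ) :
    Nfr296 A r (inclC296 t * y) = (a + b * r) ^ 2 * Nfr296 A r y := by
  unfold Nfr296
  rw [inclC296_mul_val, ht, frob296_E_ab A r hr, mul_div_assoc]

theorem Nfr296_incl (A : Matrix (Fin 2) (Fin 2) ℝ) (r : ℝ) (hr : r * r = qd296 A)
    (hr0 : r ≠ 0) (t : GL (Fin 2) ℝ) (a b : ℝ)
    (ht : (t : Matrix (Fin 2) (Fin 2) ℝ) = ab296 A a b) :
    Nfr296 A r (inclC296 t) = (a + b * r) ^ 2 := by
  have h := Nfr296_ab A r hr t a b ht 1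
  rwa [mul_one, Nfr296_one A r hr0, mul_one] at h

/-! ### The semi-invariant `|det|` (elliptic case) -/

/-- `|det y|`. -/
def Ndet296 (y : GL (Fin 2) ℂ) : ℝ := ‖(y : Matrix (Fin 2) (Fin 2) ℂ).det‖

theorem Ndet296_continuous : Continuous Ndet296 := by
  unfold Ndet296
  fun_prop

theorem Ndet296_one : Ndet296 1 = 1 := by
  simp [Ndet296]

theorem Ndet296_mul (x y : GL (Fin 2) ℂ) : Ndet296 (x * y) = Ndet296 x * Ndet296 y := by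
  simp [Ndet296, Matrix.det_mul]

theorem Ndet296_pos (y : GL (Fin 2) ℂ) : 0 < Ndet296 y := by
  unfold Ndet296
  rw [norm_pos_iff]
  exact (Matrix.isUnits_det_units y).ne_zero

theorem Ndet296_incl (t : GL (Fin 2) ℝ) :
    Ndet296 (inclC296 t) = |(t : Matrix (Fin 2) (Fin 2) ℝ).det| := by
  unfold Ndet296
  rw [inclC296_val]
  have h := RingHom.map_det (algebraMap ℝ ℂ) (t : Matrix (Fin 2) (Fin 2) ℝ)
  rw [RingHom.mapMatrix_apply] at h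
  rw [← h]
  simp

/-! ### The two cases -/

/-- **Split case** `D > 0`. -/
theorem psi_exists_split296 (A : Matrix (Fin 2) (Fin 2) ℝ) (hD : 0 < qd296 A)
    (T : Subgroup (GL (Fin 2) ℝ))
    (hT : ∀ t : GL (Fin 2) ℝ, t ∈ T ↔
      (t : Matrix (Fin 2) (Fin 2) ℝ) * A = A * (t : Matrix (Fin 2) (Fin 2) ℝ)) :
    ∃ (C : ℝ) (Ψ : GL (Fin 2) ℂ → ℝ), Continuous Ψ ∧ (∀ y, 0 ≤ Ψ y) ∧
      (∀ t ∈ T, Ψ (inclC296 t) ≠ 0 → t ∈ glBox296 C) ∧ Ψ 1 ≠ 0 ∧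
      ∀ y, ∃ s ∈ T, ∀ t ∈ T, Ψ (inclC296 t * y) = Ψ (inclC296 (t * s)) := by
  obtain ⟨r, hr0, hrr⟩ : ∃ r : ℝ, 0 < r ∧ r * r = qd296 A :=
    ⟨Real.sqrt (qd296 A), Real.sqrt_pos.2 hD, Real.mul_self_sqrt hD.le⟩
  have hrr' : (-r) * (-r) = qd296 A := by rw [neg_mul_neg]; exact hrr
  have hnr : -r ≠ 0 := neg_ne_zero.2 hr0.ne'
  have hstruct : ∀ t ∈ T, ∃ a b : ℝ, (t : Matrix (Fin 2) (Fin 2) ℝ) = ab296 A a b :=
    fun t ht => cent_struct296 A hD.ne' _ ((hT t).1 ht)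
  refine ⟨2 + 2 / r * M296 A, psi_of_semiinv296 T (Nfr296 A r) (Nfr296 A (-r))
    (Nfr296_continuous A r) (Nfr296_continuous A (-r)) (Nfr296_one A r hr0.ne')
    (Nfr296_one A (-r) hnr) ?_ ?_ ?_ _ ?_⟩
  · intro t ht y
    obtain ⟨a, b, hab⟩ := hstruct t ht
    rw [Nfr296_ab A r hrr t a b hab, Nfr296_incl A r hrr hr0.ne' t a b hab]
  · intro t ht y
    obtain ⟨a, b, hab⟩ := hstruct t ht
    rw [Nfr296_ab A (-r) hrr' t a b hab, Nfr296_incl A (-r) hrr' hnr t a b hab]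
  · intro y
    have p1 := Nfr296_pos A r hr0.ne' y
    have p2 := Nfr296_pos A (-r) hnr y
    obtain ⟨σ₁, q1, s1⟩ : ∃ σ : ℝ, 0 < σ ∧ σ ^ 2 = Nfr296 A r y :=
      ⟨Real.sqrt _, Real.sqrt_pos.2 p1, Real.sq_sqrt p1.le⟩
    obtain ⟨σ₂, q2, s2⟩ : ∃ σ : ℝ, 0 < σ ∧ σ ^ 2 = Nfr296 A (-r) y :=
      ⟨Real.sqrt _, Real.sqrt_pos.2 p2, Real.sq_sqrt p2.le⟩
    have hdet : (ab296 A ((σ₁ + σ₂) / 2) ((σ₁ - σ₂) / (2 * r))).det ≠ 0 := by
      rw [det_ab296, ← hrr]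
      have e : ((σ₁ + σ₂) / 2) ^ 2 - r * r * ((σ₁ - σ₂) / (2 * r)) ^ 2 = σ₁ * σ₂ := by
        field_simp
        ring
      rw [e]
      exact (mul_pos q1 q2).ne'
    refine ⟨Matrix.GeneralLinearGroup.mkOfDetNeZero _ hdet, ?_, ?_, ?_⟩
    · rw [hT]
      exact ab296_comm_self A _ _
    · rw [Nfr296_incl A r hrr hr0.ne' _ ((σ₁ + σ₂) / 2) ((σ₁ - σ₂) / (2 * r)) rfl, ← s1]
      congr 1
      field_simp
      ring
    · rw [Nfr296_incl A (-r) hrr' hnr _ ((σ₁ + σ₂) / 2) ((σ₁ - σ₂) / (2 * r)) rfl, ← s2]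
      congr 1
      field_simp
      ring
  · intro t ht k1 k2 i j
    obtain ⟨a, b, hab⟩ := hstruct t ht
    rw [Nfr296_incl A r hrr hr0.ne' t a b hab] at k1
    rw [Nfr296_incl A (-r) hrr' hnr t a b hab] at k2
    rw [hab]
    have c1 : |a + b * r| < 2 := abs_lt.2 ⟨by nlinarith [k1.2], by nlinarith [k1.2]⟩
    have c2 : |a + b * (-r)| < 2 := abs_lt.2 ⟨by nlinarith [k2.2], by nlinarith [k2.2]⟩
    rw [abs_lt] at c1 c2
    apply entry_bound2_296 A a b r hr0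
    · rw [abs_le]
      constructor <;> linarith [c1.1, c1.2, c2.1, c2.2]
    · have e : |b| * r = |b * r| := by rw [abs_mul, abs_of_pos hr0]
      rw [e, abs_le]
      constructor <;> linarith [c1.1, c1.2, c2.1, c2.2]

/-- **Elliptic case** `D < 0`. -/
theorem psi_exists_ell296 (A : Matrix (Fin 2) (Fin 2) ℝ) (hD : qd296 A < 0)
    (T : Subgroup (GL (Fin 2) ℝ))
    (hT : ∀ t : GL (Fin 2) ℝ, t ∈ T ↔
      (t : Matrix (Fin 2) (Fin 2) ℝ) * A = A * (t : Matrix (Fin 2) (Fin 2) ℝ)) :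
    ∃ (C : ℝ) (Ψ : GL (Fin 2) ℂ → ℝ), Continuous Ψ ∧ (∀ y, 0 ≤ Ψ y) ∧
      (∀ t ∈ T, Ψ (inclC296 t) ≠ 0 → t ∈ glBox296 C) ∧ Ψ 1 ≠ 0 ∧
      ∀ y, ∃ s ∈ T, ∀ t ∈ T, Ψ (inclC296 t * y) = Ψ (inclC296 (t * s)) := by
  obtain ⟨ρ, hρ0, hρρ⟩ : ∃ ρ : ℝ, 0 < ρ ∧ ρ * ρ = -qd296 A :=
    ⟨Real.sqrt (-qd296 A), Real.sqrt_pos.2 (neg_pos.2 hD),
      Real.mul_self_sqrt (neg_pos.2 hD).le⟩
  refine ⟨2 + 2 / ρ * M296 A, psi_of_semiinv296 T Ndet296 Ndet296 Ndet296_continuous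
    Ndet296_continuous Ndet296_one Ndet296_one (fun t _ y => Ndet296_mul _ _)
    (fun t _ y => Ndet296_mul _ _) ?_ _ ?_⟩
  · intro y
    have p := Ndet296_pos y
    obtain ⟨σ, q, s1⟩ : ∃ σ : ℝ, 0 < σ ∧ σ ^ 2 = Ndet296 y :=
      ⟨Real.sqrt _, Real.sqrt_pos.2 p, Real.sq_sqrt p.le⟩
    have hdet : (ab296 A σ 0).det ≠ 0 := by
      rw [det_ab296]
      have e : σ ^ 2 - qd296 A * 0 ^ 2 = σ ^ 2 := by ring
      rw [e]
      exact (pow_pos q 2).ne'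
    have hval : Ndet296 (inclC296 (Matrix.GeneralLinearGroup.mkOfDetNeZero _ hdet)) =
        Ndet296 y := by
      rw [Ndet296_incl]
      show |(ab296 A σ 0).det| = _
      rw [det_ab296, ← s1]
      have e : σ ^ 2 - qd296 A * 0 ^ 2 = σ ^ 2 := by ring
      rw [e, abs_of_pos (pow_pos q 2)]
    exact ⟨Matrix.GeneralLinearGroup.mkOfDetNeZero _ hdet,
      (hT _).2 (ab296_comm_self A _ _), hval, hval⟩
  · intro t ht k1 _ i j
    obtain ⟨a, b, hab⟩ := cent_struct296 A hD.ne _ ((hT t).1 ht)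
    rw [Ndet296_incl, hab, det_ab296] at k1
    have e : a ^ 2 - qd296 A * b ^ 2 = a ^ 2 + (b * ρ) ^ 2 := by
      rw [mul_pow, sq ρ, hρρ]
      ring
    rw [e, abs_of_nonneg (by positivity)] at k1
    rw [hab]
    apply entry_bound2_296 A a b ρ hρ0
    · rw [abs_le]
      constructor <;> nlinarith [k1.2, sq_nonneg (b * ρ), sq_nonneg a]
    · have e2 : |b| * ρ = |b * ρ| := by rw [abs_mul, abs_of_pos hρ0]
      rw [e2, abs_le]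
      constructor <;> nlinarith [k1.2, sq_nonneg (b * ρ), sq_nonneg a]

/-- **The function `Ψ` exists** for the centraliser of a regular element. -/
theorem psi_exists296 (A : Matrix (Fin 2) (Fin 2) ℝ) (hD : qd296 A ≠ 0)
    (T : Subgroup (GL (Fin 2) ℝ))
    (hT : ∀ t : GL (Fin 2) ℝ, t ∈ T ↔
      (t : Matrix (Fin 2) (Fin 2) ℝ) * A = A * (t : Matrix (Fin 2) (Fin 2) ℝ)) :
    ∃ (C : ℝ) (Ψ : GL (Fin 2) ℂ → ℝ), Continuous Ψ ∧ (∀ y, 0 ≤ Ψ y) ∧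
      (∀ t ∈ T, Ψ (inclC296 t) ≠ 0 → t ∈ glBox296 C) ∧ Ψ 1 ≠ 0 ∧
      ∀ y, ∃ s ∈ T, ∀ t ∈ T, Ψ (inclC296 t * y) = Ψ (inclC296 (t * s)) := by
  rcases lt_or_gt_of_ne hD with h | h
  · exact psi_exists_ell296 A h T hT
  · exact psi_exists_split296 A h T hT

/-- The centraliser of a regular element is commutative. -/
theorem cent_comm296 (A : Matrix (Fin 2) (Fin 2) ℝ) (hD : qd296 A ≠ 0)
    (s t : GL (Fin 2) ℝ)
    (hs : (s : Matrix (Fin 2) (Fin 2) ℝ) * A = A * (s : Matrix (Fin 2) (Fin 2) ℝ))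
    (ht : (t : Matrix (Fin 2) (Fin 2) ℝ) * A = A * (t : Matrix (Fin 2) (Fin 2) ℝ)) :
    s * t = t * s := by
  obtain ⟨a, b, hab⟩ := cent_struct296 A hD _ hs
  obtain ⟨a', b', hab'⟩ := cent_struct296 A hD _ ht
  apply Units.ext
  rw [Units.val_mul, Units.val_mul, hab, hab']
  exact ab296_comm A a b a' b'

end Fermat.Agent.LT.T6.H296

end
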