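import Fermat.Agent.LT.T6.Spec
import Fermat.Agent.LT.T6.H296.CutoffPsi

/-!
# Row LT, tower T6, sub-tower T6inf, leaf T6inf.09 `CutoffExC` (helper296)

**Cut-off functions exist**: for every regular `γ ∈ GL₂(ℝ)` and every Haar measure `μT` of its
centraliser `T` there are continuous `β ≥ 0` on `GL₂(ℝ)` and `β' ≥ 0` on `GL₂(ℂ)` with
`∫_T β(t x) dμT(t) = 1` for all `x`.

Proof (no partition of unity): `T` is commutative and there is an explicit continuous `Ψ ≥ 0`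
on `GL₂(ℂ)` which on every orbit `T y` is a translate of ONE compactly supported function on
`T` (`CutoffPsi.lean`); so `∫_T Ψ(t y) dμT(t)` is a constant `c ∈ (0, ∞)` and `β' = Ψ / c`,
`β = β' ∘ (GL₂(ℝ) → GL₂(ℂ))`.

The statement `cutoffExC_unfolded296` is the body of `T6.Inf.CutoffExC` VERBATIM
(`LT/T6/Inf/Spec.lean` v2 of origin/helper19@9f15c6d69); `CutoffTop.lean` states it with the
name of the Prop.

OFF-MAIN.
-/

set_option autoImplicit false

open MeasureTheory Matrix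

noncomputable section

namespace Fermat.Agent.LT.T6.H296

open Fermat.Agent.LT

theorem mem_twCentSub_id296 (γ t : GL (Fin 2) ℝ) :
    t ∈ T6.twCentSub (MonoidHom.id (GL (Fin 2) ℝ)) γ ↔
      (t : Matrix (Fin 2) (Fin 2) ℝ) * (γ : Matrix (Fin 2) (Fin 2) ℝ) =
        (γ : Matrix (Fin 2) (Fin 2) ℝ) * (t : Matrix (Fin 2) (Fin 2) ℝ) := by
  constructor
  · intro h
    have h1 : t⁻¹ * γ * t = γ := h
    have h2 : t * γ = γ * t := by
      calc t * γ = t * (t⁻¹ * γ * t) := by rw [h1]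
        _ = γ * t := by group
    have h3 := congr_arg Units.val h2
    rwa [Units.val_mul, Units.val_mul] at h3
  · intro h
    have h2 : t * γ = γ * t := Units.ext (by rw [Units.val_mul, Units.val_mul]; exact h)
    show t⁻¹ * γ * t = γ
    rw [mul_assoc, ← h2, inv_mul_cancel_left]

theorem isClosed_twCentSub_id296 (γ : GL (Fin 2) ℝ) :
    IsClosed ((T6.twCentSub (MonoidHom.id (GL (Fin 2) ℝ)) γ : Subgroup (GL (Fin 2) ℝ)) :
      Set (GL (Fin 2) ℝ)) := by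
  have h : ((T6.twCentSub (MonoidHom.id (GL (Fin 2) ℝ)) γ : Subgroup (GL (Fin 2) ℝ)) :
      Set (GL (Fin 2) ℝ)) = {t | t⁻¹ * γ * t = γ} := rfl
  rw [h]
  exact isClosed_eq (by fun_prop) continuous_const

theorem qd296_ne_zero_of_isReg (γ : GL (Fin 2) ℝ) (hγ : T6.IsReg γ) :
    qd296 (γ : Matrix (Fin 2) (Fin 2) ℝ) ≠ 0 := by
  have h : T6.disc γ ≠ 0 := IsUnit.ne_zero hγ
  unfold T6.disc at h
  unfold qd296
  exact div_ne_zero h (by norm_num)

/-- **T6inf.09, unfolded statement.** -/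
theorem cutoffExC_unfolded296 :
    ∀ γ : GL (Fin 2) ℝ, T6.IsReg γ →
      ∀ μT : @Measure (T6.twCentSub (MonoidHom.id (GL (Fin 2) ℝ)) γ) (borel _),
        @Measure.IsHaarMeasure _ _ _ (borel _) μT →
        (∃ β : GL (Fin 2) ℝ → ℝ, Continuous β ∧ (∀ x, 0 ≤ β x) ∧
          ∀ x : GL (Fin 2) ℝ,
            @integral _ _ _ _ (borel _) μT
              (fun t : T6.twCentSub (MonoidHom.id (GL (Fin 2) ℝ)) γ =>
                β ((t : GL (Fin 2) ℝ) * x)) = 1) ∧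
        ∃ β' : GL (Fin 2) ℂ → ℝ, Continuous β' ∧ (∀ x, 0 ≤ β' x) ∧
          ∀ x : GL (Fin 2) ℂ,
            @integral _ _ _ _ (borel _) μT
              (fun t : T6.twCentSub (MonoidHom.id (GL (Fin 2) ℝ)) γ =>
                β' (Matrix.GeneralLinearGroup.map (algebraMap ℝ ℂ) (t : GL (Fin 2) ℝ) * x))
              = 1 := by
  intro γ hγ μT hμ
  letI : MeasurableSpace (T6.twCentSub (MonoidHom.id (GL (Fin 2) ℝ)) γ) := borel _
  haveI : BorelSpace (T6.twCentSub (MonoidHom.id (GL (Fin 2) ℝ)) γ) := ⟨rfl⟩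
  haveI : μT.IsHaarMeasure := hμ
  have hD := qd296_ne_zero_of_isReg γ hγ
  have hT := mem_twCentSub_id296 γ
  obtain ⟨C, Ψ, hΨc, hΨ0, hbox, hΨ1, htr⟩ :=
    psi_exists296 (γ : Matrix (Fin 2) (Fin 2) ℝ) hD
      (T6.twCentSub (MonoidHom.id (GL (Fin 2) ℝ)) γ) hT
  have hcomm : ∀ a b : T6.twCentSub (MonoidHom.id (GL (Fin 2) ℝ)) γ, a * b = b * a :=
    fun a b => Subtype.ext
      (cent_comm296 (γ : Matrix (Fin 2) (Fin 2) ℝ) hD a b ((hT a).1 a.2) ((hT b).1 b.2))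
  have hFc : Continuous (fun t : T6.twCentSub (MonoidHom.id (GL (Fin 2) ℝ)) γ =>
      Ψ (inclC296 (t : GL (Fin 2) ℝ))) :=
    hΨc.comp (inclC296_continuous.comp continuous_subtype_val)
  have hFs : HasCompactSupport (fun t : T6.twCentSub (MonoidHom.id (GL (Fin 2) ℝ)) γ =>
      Ψ (inclC296 (t : GL (Fin 2) ℝ))) := by
    apply HasCompactSupport.intro (K := Subtype.val ⁻¹' glBox296 C)
    · exact (isClosed_twCentSub_id296 γ).isClosedEmbedding_subtypeVal.isCompact_preimage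
        (isCompact_glBox296 C)
    · intro t ht
      by_contra hne
      exact ht (hbox t.1 t.2 hne)
  have hFne : ∃ t : T6.twCentSub (MonoidHom.id (GL (Fin 2) ℝ)) γ,
      Ψ (inclC296 (t : GL (Fin 2) ℝ)) ≠ 0 := by
    refine ⟨1, ?_⟩
    rw [OneMemClass.coe_one, map_one]
    exact hΨ1
  constructor
  · refine cutoff_abs296 hcomm μT
      (fun t : T6.twCentSub (MonoidHom.id (GL (Fin 2) ℝ)) γ => (t : GL (Fin 2) ℝ))
      (fun x => Ψ (inclC296 x)) (hΨc.comp inclC296_continuous) (fun x => hΨ0 _)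
      _ hFc hFs (fun t => hΨ0 _) hFne ?_
    intro x
    obtain ⟨s, hs, h⟩ := htr (inclC296 x)
    refine ⟨⟨s, hs⟩, fun t => ?_⟩
    show Ψ (inclC296 ((t : GL (Fin 2) ℝ) * x)) = Ψ (inclC296 ((t : GL (Fin 2) ℝ) * s))
    rw [map_mul]
    exact h t.1 t.2
  · refine cutoff_abs296 hcomm μT
      (fun t : T6.twCentSub (MonoidHom.id (GL (Fin 2) ℝ)) γ =>
        inclC296 (t : GL (Fin 2) ℝ))
      Ψ hΨc hΨ0 _ hFc hFs (fun t => hΨ0 _) hFne ?_
    intro y
    obtain ⟨s, hs, h⟩ := htr y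
    exact ⟨⟨s, hs⟩, fun t => h t.1 t.2⟩

end Fermat.Agent.LT.T6.H296

end
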